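import Mathlib

/-!
# Row LT, tower T7, leaf DF.1 `DF619.PushCalcC619` (cut of `B981.DownFinC981` by helper619):
# MATHLIB-ONLY core (helper717, OFF-MAIN, never land)

`pushCalc_abs717`: for a finite index type `ι`, weights `f : ι → ℕ` and finitely supported
symmetric coefficients `A' w : ℤ × ℤ → ℂ`, the push-forward
`M ↦ ∑ᶠ mm, if ∑ w, f w • mm w = M then ∏ w, A' w (mm w) else 0`
is finitely supported, symmetric, and its Laurent polynomial at `(x, y)`, `x, y ≠ 0`, is the
product of the Laurent polynomials of the `A' w` at `(x ^ f w, y ^ f w)`.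
-/

set_option autoImplicit false
set_option linter.unusedSectionVars false
set_option linter.style.haveILetI false
set_option linter.unusedVariables false
set_option maxHeartbeats 1600000

namespace Fermat.Agent.LT.T7.H717

open Finset

theorem zpow_sum717 {ι : Type*} (s : Finset ι) (x : ℂ) (hx : x ≠ 0) (a : ι → ℤ) :
    x ^ (∑ i ∈ s, a i) = ∏ i ∈ s, x ^ a i := by
  classical
  induction s using Finset.induction_on with
  | empty => simp
  | insert i s hi ih =>
    rw [Finset.sum_insert hi, Finset.prod_insert hi, zpow_add₀ hx, ih]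

theorem pushCalc_abs717 {ι : Type*} [Fintype ι] (f : ι → ℕ) (A' : ι → ℤ × ℤ → ℂ)
    [∀ (M : ℤ × ℤ) (mm : ι → ℤ × ℤ), Decidable (∑ w, ((f w : ℕ) : ℤ) • mm w = M)]
    (hfin : ∀ w, (Function.support (A' w)).Finite)
    (hsym : ∀ (w : ι) (m₁ m₂ : ℤ), A' w (m₁, m₂) = A' w (m₂, m₁))
    (push : ℤ × ℤ → ℂ)
    (hpush : ∀ M, push M = ∑ᶠ mm : ι → ℤ × ℤ,
      if ∑ w, ((f w : ℕ) : ℤ) • mm w = M then ∏ w, A' w (mm w) else 0) :
    (Function.support push).Finite ∧ (∀ m₁ m₂ : ℤ, push (m₁, m₂) = push (m₂, m₁)) ∧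
      ∀ x y : ℂ, x ≠ 0 → y ≠ 0 →
        (∑ᶠ m : ℤ × ℤ, push m * x ^ m.1 * y ^ m.2)
          = ∏ w, (∑ᶠ m : ℤ × ℤ, A' w m * (x ^ f w) ^ m.1 * (y ^ f w) ^ m.2) := by
  classical
  set S : ι → Finset (ℤ × ℤ) := fun w => (hfin w).toFinset with hS
  set Box : Finset (ι → ℤ × ℤ) := Fintype.piFinset S with hBox
  set N : (ι → ℤ × ℤ) → ℤ × ℤ := fun mm => ∑ w, ((f w : ℕ) : ℤ) • mm w with hN
  have hmemS : ∀ w m, m ∈ S w ↔ A' w m ≠ 0 := by
    intro w m
    simp [hS, Function.mem_support]
  have hbox : ∀ mm : ι → ℤ × ℤ, (∏ w, A' w (mm w)) ≠ 0 → mm ∈ Box := by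
    intro mm h
    rw [hBox, Fintype.mem_piFinset]
    intro w
    rw [hmemS]
    intro h0
    exact h (Finset.prod_eq_zero (Finset.mem_univ w) h0)
  -- the push-forward as a finite sum
  have hsum : ∀ M, push M = ∑ mm ∈ Box, if N mm = M then ∏ w, A' w (mm w) else 0 := by
    intro M
    rw [hpush M]
    apply finsum_eq_sum_of_support_subset
    intro mm hmm
    rw [Function.mem_support] at hmm
    have : (∏ w, A' w (mm w)) ≠ 0 := by
      intro h0
      apply hmm
      split_ifs
      · exact h0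
      · rfl
    exact Finset.mem_coe.2 (hbox mm this)
  have hsupp : Function.support push ⊆ ((Box.image N : Finset (ℤ × ℤ)) : Set (ℤ × ℤ)) := by
    intro M hM
    rw [Function.mem_support, hsum M] at hM
    obtain ⟨mm, hmm, hne⟩ := Finset.exists_ne_zero_of_sum_ne_zero hM
    rw [Finset.mem_coe, Finset.mem_image]
    refine ⟨mm, hmm, ?_⟩
    by_contra hcon
    exact hne (if_neg hcon)
  refine ⟨(Finset.finite_toSet _).subset hsupp, ?_, ?_⟩
  · -- symmetry
    intro m₁ m₂
    rw [hpush (m₁, m₂), hpush (m₂, m₁)]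
    let sw : (ι → ℤ × ℤ) ≃ (ι → ℤ × ℤ) :=
      { toFun := fun mm w => ((mm w).2, (mm w).1)
        invFun := fun mm w => ((mm w).2, (mm w).1)
        left_inv := fun mm => by funext w; rfl
        right_inv := fun mm => by funext w; rfl }
    rw [← finsum_comp_equiv sw]
    apply finsum_congr
    intro mm
    have h1 : (∏ w, A' w (sw mm w)) = ∏ w, A' w (mm w) := by
      apply Finset.prod_congr rfl
      intro w _
      show A' w ((mm w).2, (mm w).1) = A' w (mm w)
      rw [hsym w (mm w).2 (mm w).1]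
    have h2 : (∑ w, ((f w : ℕ) : ℤ) • sw mm w = (m₁, m₂))
        ↔ (∑ w, ((f w : ℕ) : ℤ) • mm w = (m₂, m₁)) := by
      have hfst : ∀ g : ι → ℤ × ℤ, (∑ w, ((f w : ℕ) : ℤ) • g w)
          = (∑ w, ((f w : ℕ) : ℤ) * (g w).1, ∑ w, ((f w : ℕ) : ℤ) * (g w).2) := by
        intro g
        apply Prod.ext
        · rw [Prod.fst_sum]
          apply Finset.sum_congr rfl
          intro w _
          simp
        · rw [Prod.snd_sum]
          apply Finset.sum_congr rfl
          intro w _
          simp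
      rw [hfst, hfst]
      show ((∑ w, ((f w : ℕ) : ℤ) * (mm w).2, ∑ w, ((f w : ℕ) : ℤ) * (mm w).1) = (m₁, m₂)) ↔ _
      rw [Prod.mk.injEq, Prod.mk.injEq]
      exact and_comm
    by_cases hc : ∑ w, ((f w : ℕ) : ℤ) • mm w = (m₂, m₁)
    · rw [if_pos hc, if_pos (h2.2 hc), h1]
    · rw [if_neg hc, if_neg (fun h => hc (h2.1 h))]
  · -- the Laurent polynomial
    intro x y hx hy
    have hL : (∑ᶠ m : ℤ × ℤ, push m * x ^ m.1 * y ^ m.2)
        = ∑ M ∈ Box.image N, push M * x ^ M.1 * y ^ M.2 := by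
      apply finsum_eq_sum_of_support_subset
      intro M hM
      rw [Function.mem_support] at hM
      apply hsupp
      rw [Function.mem_support]
      intro h0
      apply hM
      rw [h0, zero_mul, zero_mul]
    rw [hL]
    have hR : ∀ w, (∑ᶠ m : ℤ × ℤ, A' w m * (x ^ f w) ^ m.1 * (y ^ f w) ^ m.2)
        = ∑ m ∈ S w, A' w m * (x ^ f w) ^ m.1 * (y ^ f w) ^ m.2 := by
      intro w
      apply finsum_eq_sum_of_support_subset
      intro m hm
      rw [Function.mem_support] at hm
      rw [Finset.mem_coe, hmemS]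
      intro h0
      apply hm
      rw [h0, zero_mul, zero_mul]
    simp_rw [hR]
    rw [Finset.prod_univ_sum]
    -- exchange the sums
    have h3 : ∀ M ∈ Box.image N, push M * x ^ M.1 * y ^ M.2
        = ∑ mm ∈ Box, if N mm = M then (∏ w, A' w (mm w)) * x ^ (N mm).1 * y ^ (N mm).2
            else 0 := by
      intro M _
      rw [hsum M, Finset.sum_mul, Finset.sum_mul]
      apply Finset.sum_congr rfl
      intro mm _
      by_cases hc : N mm = M
      · rw [if_pos hc, if_pos hc, hc]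
      · rw [if_neg hc, if_neg hc, zero_mul, zero_mul]
    rw [Finset.sum_congr rfl h3, Finset.sum_comm]
    apply Finset.sum_congr rfl
    intro mm hmm
    rw [Finset.sum_eq_single (N mm) (fun b _ hb => if_neg (Ne.symm hb))
      (fun h => absurd (Finset.mem_image_of_mem N hmm) h), if_pos rfl]
    have hN1 : (N mm).1 = ∑ w, ((f w : ℕ) : ℤ) * (mm w).1 := by
      rw [hN]
      show (∑ w, ((f w : ℕ) : ℤ) • mm w).1 = _
      rw [Prod.fst_sum]
      apply Finset.sum_congr rfl
      intro w _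
      simp
    have hN2 : (N mm).2 = ∑ w, ((f w : ℕ) : ℤ) * (mm w).2 := by
      rw [hN]
      show (∑ w, ((f w : ℕ) : ℤ) • mm w).2 = _
      rw [Prod.snd_sum]
      apply Finset.sum_congr rfl
      intro w _
      simp
    rw [hN1, hN2, zpow_sum717 _ x hx, zpow_sum717 _ y hy, ← Finset.prod_mul_distrib,
      ← Finset.prod_mul_distrib]
    apply Finset.prod_congr rfl
    intro w _
    rw [zpow_mul, zpow_mul, zpow_natCast, zpow_natCast]

end Fermat.Agent.LT.T7.H717
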