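import Mathlib
import Fermat.Agent.LT.T7.B981.H619.DownFinSpec
import Fermat.Agent.LT.T7.H717.PushCalcAbs

/-!
# Row LT, tower T7, leaf DF.1 `DF619.PushCalcC619` (cut of `B981.DownFinC981` by helper619):
# PROVED VERBATIM, UNCONDITIONAL (helper717, OFF-MAIN, never land)

    pushCalcC717 (K K') : DF619.PushCalcC619 K K'

Plug of the Mathlib-only core `pushCalc_abs717` (`PushCalcAbs.lean`) for the index type
`↥(fib981 P' v)`, the weights `resDeg981 v w` and the coefficients `A' w`.
-/

set_option autoImplicit false
set_option linter.unusedSectionVars false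
set_option linter.style.haveILetI false
set_option linter.unusedVariables false
set_option maxHeartbeats 1600000

open IsDedekindDomain NumberField

namespace Fermat.Agent.LT.T7.H717

open Fermat.Agent.LT Fermat.Agent.LT.T7 Fermat.Agent.LT.T7.B981

theorem pushCalcC717 (K K' : Type) [Field K] [NumberField K] [Field K'] [NumberField K']
    [Algebra K K'] : DF619.PushCalcC619 K K' := by
  intro P' A' v hA
  obtain ⟨h1, h2, h3⟩ := pushCalc_abs717 (ι := ↥(fib981 (K := K) P' v))
    (f := fun w => resDeg981 v w.1) (A' := fun w => A' w.1)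
    (hfin := fun w => (hA w.1 w.2).1) (hsym := fun w => (hA w.1 w.2).2)
    (push := pushFin981 (K := K) P' A' v) (hpush := fun M => rfl)
  refine ⟨⟨h1, h2⟩, fun x y hx hy => ?_⟩
  have h := h3 x y hx hy
  rw [← Finset.prod_coe_sort]
  exact h

end Fermat.Agent.LT.T7.H717
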